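import Mathlib

set_option autoImplicit false

/-!
# Elliptic points of order three on `X_0(N l)`: the two degeneracy maps agree

If `γ ∈ Γ₀(N l)` has trace `± 1` and fixes `z ∈ ℍ`, then `l z ∈ Γ₀(N) z`.
-/

open Matrix UpperHalfPlane CongruenceSubgroup
open scoped MatrixGroups

namespace Fermat.Agent.SM3b

/-- representation of divisors of `a² - a + 1` by the form `x² + xy + y²` -/
theorem exists_norm_form (n : ℕ) (hn : 0 < n) :
    ∀ a : ℤ, (n : ℤ) ∣ a ^ 2 - a + 1 →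
      ∃ x y : ℤ, x ^ 2 + x * y + y ^ 2 = n ∧ (n : ℤ) ∣ x + y * a := by
  induction n using Nat.strong_induction_on with
  | _ n ih =>
  intro a ha
  rcases Nat.eq_or_lt_of_le (Nat.succ_le_of_lt hn) with h1 | h1
  · refine ⟨1, 0, ?_, ?_⟩
    · rw [← h1]; norm_num
    · rw [← h1]; simp
  · -- reduce `a`
    obtain ⟨b, t, hb, hb1, hb2⟩ : ∃ b t : ℤ, a = b + n * t ∧ -(n : ℤ) ≤ 2 * b ∧ 2 * b ≤ n := by
      have hn0 : (0 : ℤ) < n := by exact_mod_cast hn
      refine ⟨a - n * ((2 * a + n) / (2 * n)), (2 * a + n) / (2 * n), by ring, ?_, ?_⟩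
      · have h2 := Int.emod_nonneg (2 * a + n) (show (2 * (n : ℤ)) ≠ 0 by positivity)
        have h3 := Int.emod_add_mul_ediv (2 * a + n) (2 * (n : ℤ))
        nlinarith
      · have h2 := Int.emod_lt_of_pos (2 * a + n) (show (0 : ℤ) < 2 * n by positivity)
        have h3 := Int.emod_add_mul_ediv (2 * a + n) (2 * (n : ℤ))
        nlinarith
    have hbd : (n : ℤ) ∣ b ^ 2 - b + 1 := by
      have : b ^ 2 - b + 1 = (a ^ 2 - a + 1) - n * (t * (a + b) - t) := by rw [hb]; ring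
      rw [this]
      exact dvd_sub ha (dvd_mul_right _ _)
    obtain ⟨m, hm⟩ := hbd
    have hn2 : (2 : ℤ) ≤ n := by exact_mod_cast h1
    have hmpos : 0 < m := by
      have h4 : 0 < b ^ 2 - b + 1 := by nlinarith [sq_nonneg (2 * b - 1)]
      rw [hm] at h4
      exact pos_of_mul_pos_right h4 (by omega)
    have hmlt : m < n := by
      have h5 : 4 * (n * m) ≤ (n : ℤ) ^ 2 + 2 * n + 4 := by
        rw [← hm]
        nlinarith
      by_contra hcon
      push Not at hcon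
      have h6 : (n : ℤ) * n ≤ n * m := mul_le_mul_of_nonneg_left hcon (by omega)
      have h7 : (n : ℤ) < 2 := by nlinarith
      omega
    lift m to ℕ using hmpos.le
    obtain ⟨x, y, hxy, hd⟩ := ih m (by exact_mod_cast hmlt) (by exact_mod_cast hmpos) b
      ⟨n, by rw [hm]; ring⟩
    obtain ⟨w, hw⟩ := hd
    have hm0 : (m : ℤ) ≠ 0 := by omega
    have hx : x = m * w - y * b := by rw [← hw]; ring
    subst hx
    have e3 : (m : ℤ) * w ^ 2 - 2 * w * y * b + w * y + y ^ 2 * n = 1 := by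
      have : (m : ℤ) * (m * w ^ 2 - 2 * w * y * b + w * y + y ^ 2 * n) = m * 1 := by
        linear_combination hxy - y ^ 2 * hm
      exact mul_left_cancel₀ hm0 this
    refine ⟨b * w - y * n, -w, ?_, ⟨-y - w * t, ?_⟩⟩
    · linear_combination w ^ 2 * hm + (n : ℤ) * e3
    · rw [hb]
      ring

theorem denom_ne (c d : ℤ) (h : c ≠ 0 ∨ d ≠ 0) (z : ℍ) : (c : ℂ) * z + d ≠ 0 := by
  intro h0
  have him := congrArg Complex.im h0
  have hre := congrArg Complex.re h0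
  simp only [Complex.add_im, Complex.mul_im, Complex.intCast_re, Complex.intCast_im, zero_mul,
    add_zero, Complex.zero_im, mul_eq_zero, Int.cast_eq_zero, Complex.add_re, Complex.mul_re,
    sub_zero, Complex.zero_re] at him hre
  have hz : (z : ℂ).im ≠ 0 := z.im_pos.ne'
  have hc : c = 0 := him.resolve_right hz
  subst hc
  simp at hre
  simp [hre] at h

theorem row_ne_zero (g : SL(2, ℤ)) : g 1 0 ≠ 0 ∨ g 1 1 ≠ 0 := by
  by_contra h
  push Not at h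
  have h1 := g.det_coe
  rw [Matrix.det_fin_two] at h1
  rw [show (g : Matrix (Fin 2) (Fin 2) ℤ) 1 0 = 0 from h.1,
    show (g : Matrix (Fin 2) (Fin 2) ℤ) 1 1 = 0 from h.2] at h1
  simp at h1

theorem smul_mul_denom (g : SL(2, ℤ)) (z : ℍ) :
    ((g • z : ℍ) : ℂ) * (((g 1 0 : ℤ) : ℂ) * z + (g 1 1 : ℤ)) =
      ((g 0 0 : ℤ) : ℂ) * z + (g 0 1 : ℤ) := by
  rw [UpperHalfPlane.coe_specialLinearGroup_apply]
  have h := denom_ne (g 1 0) (g 1 1) (row_ne_zero g) z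
  simp only [algebraMap_int_eq, Int.coe_castRingHom, Complex.ofReal_intCast]
  exact div_mul_cancel₀ _ h

theorem smul_eq_iff (g : SL(2, ℤ)) (z : ℍ) (w : ℂ) :
    ((g • z : ℍ) : ℂ) = w ↔ w * (((g 1 0 : ℤ) : ℂ) * z + (g 1 1 : ℤ)) =
      ((g 0 0 : ℤ) : ℂ) * z + (g 0 1 : ℤ) := by
  rw [← smul_mul_denom]
  exact ⟨fun h => by rw [h], fun h =>
    (mul_right_cancel₀ (denom_ne (g 1 0) (g 1 1) (row_ne_zero g) z) h).symm⟩

theorem gamma0_iff {N : ℕ} {g : SL(2, ℤ)} : g ∈ Gamma0 N ↔ (N : ℤ) ∣ g 1 0 :=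
  Gamma0_mem.trans (ZMod.intCast_zmod_eq_zero_iff_dvd _ _)

/-- the case of trace `1` -/
theorem exists_gamma0_smul_eq_one {N l : ℕ} (hl : 0 < l) {γ : SL(2, ℤ)}
    (hγ : γ ∈ Gamma0 (N * l)) (htr : γ 0 0 + γ 1 1 = 1) {z : ℍ} (hz : γ • z = z) :
    ∃ g ∈ Gamma0 N, ((g • z : ℍ) : ℂ) = l * (z : ℂ) := by
  have hl0 : (l : ℤ) ≠ 0 := by exact_mod_cast hl.ne'
  have hdet : γ 0 0 * γ 1 1 - γ 0 1 * γ 1 0 = 1 := by
    have h1 := γ.det_coe
    rw [Matrix.det_fin_two] at h1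
    exact h1
  obtain ⟨c', hc'⟩ := gamma0_iff.1 hγ
  have hfix := smul_mul_denom γ z
  rw [hz, hc'] at hfix
  generalize (γ 0 0 : ℤ) = a at *
  generalize (γ 0 1 : ℤ) = b at *
  generalize (γ 1 1 : ℤ) = d at *
  rw [hc'] at hdet
  push_cast at hdet
  have ha : (l : ℤ) ∣ a ^ 2 - a + 1 :=
    ⟨-(b * N * c'), by linear_combination a * htr - hdet⟩
  obtain ⟨x, y, hxy, w, hw⟩ := exists_norm_form l hl _ ha
  obtain ⟨g, hg0, hg1, hg2, hg3⟩ : ∃ g : SL(2, ℤ), g 0 0 = x + y * d ∧ g 0 1 = -(y * b) ∧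
      g 1 0 = -(y * N * c') ∧ g 1 1 = w := by
    refine ⟨⟨!![x + y * d, -(y * b); -(y * N * c'), w], ?_⟩, rfl, rfl, rfl, rfl⟩
    rw [Matrix.det_fin_two_of]
    have : (l : ℤ) * ((x + y * d) * w - -(y * b) * -(y * N * c')) = l * 1 := by
      linear_combination hxy - (x + y * d) * hw + y ^ 2 * hdet + x * y * htr
    exact mul_left_cancel₀ hl0 this
  refine ⟨g, ?_, ?_⟩
  · rw [gamma0_iff, hg2]
    exact ⟨-(y * c'), by ring⟩
  · rw [smul_eq_iff, hg0, hg1, hg2, hg3]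
    have hw' : (x : ℂ) + y * a = l * w := by exact_mod_cast hw
    push_cast at hfix ⊢
    linear_combination (-(y : ℂ)) * hfix - (z : ℂ) * hw'

theorem neg_mem_gamma0 {N : ℕ} {g : SL(2, ℤ)} (h : g ∈ Gamma0 N) : -g ∈ Gamma0 N := by
  rw [gamma0_iff] at h ⊢
  rw [show (-g : SL(2, ℤ)) 1 0 = -(g 1 0) from rfl]
  exact h.neg_right

theorem neg_smul_fix {g : SL(2, ℤ)} {z : ℍ} (h : g • z = z) : (-g) • z = z := by
  rw [ModularGroup.SL_neg_smul]
  exact h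

/-- **(b1)** the two degeneracy maps agree at a point of `X_0(N l)` fixed by an element of
trace `±1` -/
theorem exists_gamma0_smul_eq {N l : ℕ} (hl : 0 < l) {γ : SL(2, ℤ)}
    (hγ : γ ∈ Gamma0 (N * l)) (htr : γ 0 0 + γ 1 1 = 1 ∨ γ 0 0 + γ 1 1 = -1) {z : ℍ}
    (hz : γ • z = z) : ∃ g ∈ Gamma0 N, ((g • z : ℍ) : ℂ) = l * (z : ℂ) := by
  rcases htr with h | h
  · exact exists_gamma0_smul_eq_one hl hγ h hz
  · refine exists_gamma0_smul_eq_one hl (neg_mem_gamma0 hγ) ?_ (neg_smul_fix hz)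
    rw [show (-γ : SL(2, ℤ)) 0 0 = -(γ 0 0) from rfl, show (-γ : SL(2, ℤ)) 1 1 = -(γ 1 1) from rfl]
    linarith

/-- elements of order `3` of `PSL₂(ℤ)` have trace `±1` -/
theorem trace_of_pow_three {γ : SL(2, ℤ)} (h3 : γ ^ 3 = 1 ∨ γ ^ 3 = -1) (h1 : γ ≠ 1)
    (h2 : γ ≠ -1) : γ 0 0 + γ 1 1 = 1 ∨ γ 0 0 + γ 1 1 = -1 := by
  have hdet : γ 0 0 * γ 1 1 - γ 0 1 * γ 1 0 = 1 := by
    have h1 := γ.det_coe
    rw [Matrix.det_fin_two] at h1
    exact h1
  obtain ⟨e, he, h4⟩ : ∃ e : ℤ, e * e = 1 ∧ ((γ ^ 3 : SL(2, ℤ)) : Matrix (Fin 2) (Fin 2) ℤ) =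
      e • (1 : Matrix (Fin 2) (Fin 2) ℤ) := by
    rcases h3 with h | h
    · exact ⟨1, by norm_num, by rw [h, one_smul]; rfl⟩
    · exact ⟨-1, by norm_num, by rw [h, _root_.neg_smul, one_smul]; rfl⟩
  have h5 : ∀ i j, ((γ ^ 3 : SL(2, ℤ)) : Matrix (Fin 2) (Fin 2) ℤ) i j =
      (γ i 0 * γ 0 0 + γ i 1 * γ 1 0) * γ 0 j + (γ i 0 * γ 0 1 + γ i 1 * γ 1 1) * γ 1 j := by
    intro i j
    rw [Matrix.SpecialLinearGroup.coe_pow, pow_succ, pow_two]
    simp only [Matrix.mul_apply, Fin.sum_univ_two]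
  have e00 := (h5 0 0).symm.trans (congrFun (congrFun h4 0) 0)
  have e01 := (h5 0 1).symm.trans (congrFun (congrFun h4 0) 1)
  have e10 := (h5 1 0).symm.trans (congrFun (congrFun h4 1) 0)
  have e11 := (h5 1 1).symm.trans (congrFun (congrFun h4 1) 1)
  simp only [Matrix.smul_apply, Matrix.one_apply_eq, smul_eq_mul, mul_one, ne_eq,
    one_ne_zero, not_false_eq_true, Matrix.one_apply_ne, zero_ne_one, mul_zero] at e00 e01 e10 e11
  have hne : ∀ a b c d : ℤ, γ 0 0 = a → γ 0 1 = b → γ 1 0 = c → γ 1 1 = d →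
      ¬ (b = 0 ∧ c = 0 ∧ a = d ∧ a * a = 1) := by
    rintro a b c d ha hb hc hd ⟨rfl, rfl, rfl, h7⟩
    rcases mul_self_eq_one_iff.1 h7 with rfl | rfl
    · apply h1
      ext i j
      fin_cases i <;> fin_cases j <;> assumption
    · apply h2
      ext i j
      fin_cases i <;> fin_cases j <;> assumption
  have hne' := hne _ _ _ _ rfl rfl rfl rfl
  generalize (γ 0 0 : ℤ) = a at *
  generalize (γ 0 1 : ℤ) = b at *
  generalize (γ 1 0 : ℤ) = c at *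
  generalize (γ 1 1 : ℤ) = d at *
  by_contra hcon
  push Not at hcon
  have ht : (a + d) * (a + d) - 1 ≠ 0 := by
    intro h
    rcases mul_self_eq_one_iff.1 (sub_eq_zero.1 h) with h | h
    · exact hcon.1 h
    · exact hcon.2 h
  have hb : b = 0 := by
    have : ((a + d) * (a + d) - 1) * b = 0 := by linear_combination e01 + b * hdet
    exact (mul_eq_zero.1 this).resolve_left ht
  have hc : c = 0 := by
    have : ((a + d) * (a + d) - 1) * c = 0 := by linear_combination e10 + c * hdet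
    exact (mul_eq_zero.1 this).resolve_left ht
  have had : a = d := by
    have : ((a + d) * (a + d) - 1) * (a - d) = 0 := by
      linear_combination e00 - e11 + (a - d) * hdet
    exact sub_eq_zero.1 ((mul_eq_zero.1 this).resolve_left ht)
  subst hb hc had
  exact hne' ⟨rfl, rfl, rfl, by linarith⟩

theorem exists_gamma0_smul_eq_of_pow {N l : ℕ} (hl : 0 < l) {γ : SL(2, ℤ)}
    (hγ : γ ∈ Gamma0 (N * l)) (h3 : γ ^ 3 = 1 ∨ γ ^ 3 = -1) (h1 : γ ≠ 1) (h2 : γ ≠ -1) {z : ℍ}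
    (hz : γ • z = z) : ∃ g ∈ Gamma0 N, ((g • z : ℍ) : ℂ) = l * (z : ℂ) :=
  exists_gamma0_smul_eq hl hγ (trace_of_pow_three h3 h1 h2) hz

end Fermat.Agent.SM3b
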